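import Fermat.Agent.HeckeLattice.Transfer
import Fermat.Prelude.Def_ModularCurve_PeriodMap
import Mathlib.Dynamics.PeriodicPts.Lemmas
import Mathlib.LinearAlgebra.Matrix.Charpoly.Coeff

/-!
# Transfers preserve parabolic homomorphisms
-/

set_option autoImplicit false

noncomputable section

namespace Fermat.Agent.HeckeLattice

open Matrix.SpecialLinearGroup ModularCurve.Period
open scoped MatrixGroups

/-- Powers of an element of squared trace `4` have squared trace `4`. -/
lemma trace_pow_sq_eq_four (g : SL(2, ℤ))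
    (h : (g : Matrix (Fin 2) (Fin 2) ℤ).trace ^ 2 = 4) (m : ℕ) :
    ((g ^ m : SL(2, ℤ)) : Matrix (Fin 2) (Fin 2) ℤ).trace ^ 2 = 4 := by
  set M : Matrix (Fin 2) (Fin 2) ℤ := (g : Matrix (Fin 2) (Fin 2) ℤ)
  obtain ⟨e, he, hM⟩ : ∃ e : ℤ, e ^ 2 = 1 ∧ M.trace = 2 * e := by
    rcases sq_eq_sq_iff_eq_or_eq_neg.mp (h.trans (by norm_num : (4 : ℤ) = 2 ^ 2)) with h2 | h2
    · exact ⟨1, by norm_num, by rw [h2]; norm_num⟩
    · exact ⟨-1, by norm_num, by rw [h2]; norm_num⟩
  have hdet : M 0 0 * M 1 1 - M 0 1 * M 1 0 = 1 := by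
    rw [← Matrix.det_fin_two]; exact g.det_coe
  have hCH : M * M = (2 * e) • M - 1 := by
    rw [← hM, Matrix.trace_fin_two]
    ext i j
    rw [Matrix.sub_apply, Matrix.smul_apply, Matrix.mul_apply, Fin.sum_univ_two, smul_eq_mul,
      Matrix.one_apply]
    fin_cases i <;> fin_cases j <;> simp <;> linarith
  have key : ∀ k : ℕ, (M ^ k).trace = 2 * e ^ k ∧ (M ^ (k + 1)).trace = 2 * e ^ (k + 1) := by
    intro k
    induction k with
    | zero => exact ⟨by simp [Matrix.trace_one], by simpa using hM⟩
    | succ k ih =>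
      refine ⟨ih.2, ?_⟩
      have h3 : M ^ (k + 1 + 1) = (2 * e) • M ^ (k + 1) - M ^ k := by
        rw [pow_succ, pow_succ, mul_assoc, hCH, mul_sub, mul_smul_comm, mul_one]
      rw [h3, Matrix.trace_sub, Matrix.trace_smul, ih.1, ih.2, smul_eq_mul]
      linear_combination (2 * e ^ k) * he
  rw [Matrix.SpecialLinearGroup.coe_pow, (key m).1, mul_pow, ← pow_mul, mul_comm m 2, pow_mul, he]
  norm_num

namespace CosetSystem

variable {Γ : Subgroup SL(2, ℤ)} {ι : Type*} (D : CosetSystem Γ ι)

/-- `next` of a power is the iterate of `next`. -/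
lemma next_pow (γ : Γ) (i : ℕ) (x : ι) : D.next (γ ^ i) x = (D.next γ)^[i] x := by
  induction i with
  | zero => rw [pow_zero, next_one]; rfl
  | succ i ih => rw [pow_succ, next_mul, ih, Function.iterate_succ_apply']

/-- The value on the cocycle of a power is a sum along the orbit. -/
lemma apply_cocycle_pow {B : Type*} [AddCommGroup B] (χ : Additive Γ →+ B) (γ : Γ) (x : ι) :
    ∀ i : ℕ, χ (Additive.ofMul (D.cocycle (γ ^ i) x))
      = ∑ j ∈ Finset.range i, χ (Additive.ofMul (D.cocycle γ ((D.next γ)^[j] x)))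
  | 0 => by rw [pow_zero, cocycle_one]; simp
  | (i + 1) => by
      rw [pow_succ, cocycle_mul, ofMul_mul, map_add, apply_cocycle_pow χ γ x i, next_pow,
        Finset.sum_range_succ]

/-- The cocycle at a fixed representative has the same trace. -/
lemma trace_cocycle_of_next_eq (δ : Γ) (x : ι) (h : D.next δ x = x) :
    ((D.cocycle δ x : Γ) : Matrix (Fin 2) (Fin 2) ℤ).trace
      = ((δ : SL(2, ℤ)) : Matrix (Fin 2) (Fin 2) ℤ).trace := by
  have h1 := D.rep_mul δ x
  rw [h] at h1
  have h2 : toGL (D.cocycle δ x) = D.β x * toGL δ * (D.β x)⁻¹ := eq_mul_inv_of_mul_eq h1.symm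
  have h3 := congrArg (fun A : GL (Fin 2) ℝ => (A : Matrix (Fin 2) (Fin 2) ℝ).trace) h2
  rw [Units.val_mul, Units.val_mul, Matrix.trace_units_conj, toGL, toGL] at h3
  simp only [Matrix.trace_fin_two] at h3 ⊢
  simp at h3
  exact_mod_cast h3

variable [Fintype ι]

/-- Transfers preserve parabolic homomorphisms. -/
theorem transfer_isParabolicHom {B : Type*} [AddCommGroup B] {χ : Additive Γ →+ B}
    (hχ : IsParabolicHom Γ χ) : IsParabolicHom Γ (D.transfer χ) := by
  classical
  intro γ hγ
  set f := D.next γ with hf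
  have hinj : Function.Injective f := (D.nextPerm γ).injective
  have key : ∀ s : Finset ι, (∀ x ∈ s, f x ∈ s) →
      ∑ x ∈ s, χ (Additive.ofMul (D.cocycle γ x)) = 0 := by
    intro s
    induction s using Finset.strongInduction with
    | H s ih =>
      intro hs
      rcases s.eq_empty_or_nonempty with rfl | ⟨x, hx⟩
      · rfl
      have hper : x ∈ Function.periodicPts f := hinj.mem_periodicPts x
      set m := Function.minimalPeriod f x with hm
      have hm0 : 0 < m := Function.minimalPeriod_pos_of_mem_periodicPts hper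
      set O := (Finset.range m).image (fun i => f^[i] x) with hO
      have hit : ∀ i, f^[i] x ∈ s := fun i => by
        induction i with
        | zero => exact hx
        | succ i hi => rw [Function.iterate_succ_apply']; exact hs _ hi
      have hOs : O ⊆ s := by
        intro y hy
        obtain ⟨i, -, rfl⟩ := Finset.mem_image.mp hy
        exact hit i
      have hmem : ∀ i, f^[i] x ∈ O := fun i => Finset.mem_image.mpr
        ⟨i % m, Finset.mem_range.mpr (Nat.mod_lt _ hm0), Function.iterate_mod_minimalPeriod_eq⟩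
      have hxO : x ∈ O := hmem 0
      have hback : ∀ y, f y ∈ O → y ∈ O := by
        intro y hy
        obtain ⟨i, hi, hiy⟩ := Finset.mem_image.mp hy
        have h1 : f (f^[i + (m - 1)] x) = f y := by
          rw [← Function.iterate_succ_apply' f, show (i + (m - 1)).succ = i + m by omega,
            Function.iterate_add_apply, Function.iterate_minimalPeriod, hiy]
        rw [← hinj h1]
        exact hmem _
      have hsum : ∑ y ∈ O, χ (Additive.ofMul (D.cocycle γ y)) = 0 := by
        rw [hO, Finset.sum_image (fun a ha b hb hab => by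
          simp only [Finset.coe_range, Set.mem_Iio] at ha hb
          exact Function.iterate_injOn_Iio_minimalPeriod ha hb hab),
          ← D.apply_cocycle_pow χ γ x m]
        refine hχ _ ?_
        rw [D.trace_cocycle_of_next_eq _ x (by rw [D.next_pow]; exact Function.iterate_minimalPeriod)]
        push_cast
        simpa using trace_pow_sq_eq_four (γ : SL(2, ℤ)) hγ m
      have hrest : ∑ y ∈ s \ O, χ (Additive.ofMul (D.cocycle γ y)) = 0 := by
        refine ih _ (Finset.sdiff_ssubset hOs ⟨x, hxO⟩) fun y hy => ?_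
        rw [Finset.mem_sdiff] at hy ⊢
        exact ⟨hs y hy.1, fun h => hy.2 (hback y h)⟩
      rw [← Finset.sum_sdiff hOs, hrest, hsum, add_zero]
  rw [transfer_apply]
  exact key Finset.univ fun x _ => Finset.mem_univ _

end CosetSystem

end Fermat.Agent.HeckeLattice
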