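import Fermat.Agent.HeckeLattice.Periods
import Fermat.Prelude.Def_CuspForm_HeckeAlgebra
import Mathlib.Algebra.FreeAlgebra
import Mathlib.Algebra.Module.CharacterModule
import Mathlib.GroupTheory.Schreier
import Mathlib.GroupTheory.Abelianization.Defs
import Mathlib.LinearAlgebra.Matrix.FixedDetMatrices
import Mathlib.RingTheory.Filtration

/-!
# The period lattice and faithfulness of transfer operators on parabolic characters

Formal Hecke operators away from `S` act on `Hom(Γ₀(N), B)` by transfers and on cusp forms. If one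
kills all parabolic characters with values in `ℤ/p^k`, its image in the Hecke algebra of cusp forms
is divisible by a power of `p` growing with `k`.
-/

set_option autoImplicit false

noncomputable section

open CongruenceSubgroup ModularCurve ModularCurve.Period
open scoped MatrixGroups

namespace Fermat.Agent.HeckeLattice

section generalLemmas

/-- Homomorphisms to `ℤ/n` separate the points of an `n`-torsion group. -/
lemma exists_zmod_hom_ne_zero {Q : Type*} [AddCommGroup Q] {n : ℕ} [NeZero n]
    (hQ : ∀ x : Q, n • x = 0) {a : Q} (ha : a ≠ 0) : ∃ ψ : Q →+ ZMod n, ψ a ≠ 0 := by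
  obtain ⟨c, hc⟩ := CharacterModule.exists_character_apply_ne_zero_of_ne_zero ha
  have h1 : (zmultiplesHom (AddCircle (1 : ℚ)) (((1 : ℚ) / n : ℚ) : AddCircle (1 : ℚ))) n = 0 := by
    rw [zmultiplesHom_apply, ← AddCircle.coe_zsmul, AddCircle.coe_eq_zero_iff]
    refine ⟨1, ?_⟩
    rw [one_smul, zsmul_eq_mul]
    push_cast
    have hn : (n : ℚ) ≠ 0 := Nat.cast_ne_zero.mpr (NeZero.ne n)
    field_simp
  set e : ZMod n →+ AddCircle (1 : ℚ) := ZMod.lift n ⟨_, h1⟩ with he
  have hinj : Function.Injective e := by
    rw [injective_iff_map_eq_zero]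
    intro x hx
    obtain ⟨k, rfl⟩ := ZMod.intCast_surjective x
    rw [he, ZMod.lift_coe, zmultiplesHom_apply, ← AddCircle.coe_zsmul,
      AddCircle.coe_eq_zero_iff] at hx
    obtain ⟨m, hm⟩ := hx
    rw [ZMod.intCast_zmod_eq_zero_iff_dvd]
    refine ⟨m, ?_⟩
    have hn : (n : ℚ) ≠ 0 := Nat.cast_ne_zero.mpr (NeZero.ne n)
    rw [zsmul_eq_mul, zsmul_eq_mul, mul_one] at hm
    field_simp at hm
    have hm' : (k : ℚ) = (((n : ℤ) * m : ℤ) : ℚ) := by push_cast; linarith
    exact_mod_cast hm'
  have hrange : ∀ x : Q, c x ∈ e.range := by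
    intro x
    obtain ⟨r, hr⟩ := QuotientAddGroup.mk_surjective (c x)
    have h2 : ((n • r : ℚ) : AddCircle (1 : ℚ)) = 0 := by
      rw [AddCircle.coe_nsmul]
      show n • (r : AddCircle (1 : ℚ)) = 0
      rw [show (r : AddCircle (1 : ℚ)) = c x from hr, ← map_nsmul, hQ, map_zero]
    obtain ⟨m, hm⟩ := AddCircle.coe_eq_zero_iff _ |>.mp h2
    refine ⟨(m : ZMod n), ?_⟩
    rw [he, ZMod.lift_coe, zmultiplesHom_apply, ← AddCircle.coe_zsmul, ← hr]
    refine congrArg (fun q : ℚ => (q : AddCircle (1 : ℚ))) ?_
    have hn : (n : ℚ) ≠ 0 := Nat.cast_ne_zero.mpr (NeZero.ne n)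
    rw [zsmul_eq_mul, nsmul_eq_mul, mul_one] at hm
    rw [zsmul_eq_mul]
    field_simp
    linarith
  refine ⟨(AddMonoidHom.ofInjective hinj).symm.toAddMonoidHom.comp (c.codRestrict e.range hrange),
    fun h0 => hc ?_⟩
  have h3 : c.codRestrict e.range hrange a = 0 :=
    (AddEquiv.map_eq_zero_iff (AddMonoidHom.ofInjective hinj).symm).mp h0
  exact congrArg Subtype.val h3

/-- An element killed by every homomorphism to `ℤ/n` is a multiple of `n`. -/
lemma exists_nsmul_eq_of_forall_zmod_hom {A : Type*} [AddCommGroup A] {n : ℕ} [NeZero n] {a : A}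
    (h : ∀ ψ : A →+ ZMod n, ψ a = 0) : ∃ b : A, n • b = a := by
  by_contra hne
  set K : AddSubgroup A := (nsmulAddMonoidHom (α := A) n).range
  obtain ⟨ψ, hψ⟩ := exists_zmod_hom_ne_zero (Q := A ⧸ K) (n := n) (fun x => by
      obtain ⟨y, rfl⟩ := QuotientAddGroup.mk_surjective x
      rw [← QuotientAddGroup.mk_nsmul, QuotientAddGroup.eq_zero_iff]
      exact ⟨y, rfl⟩)
    (a := (a : A ⧸ K)) (fun h0 => hne ((QuotientAddGroup.eq_zero_iff a).mp h0))
  exact hψ (h (ψ.comp (QuotientAddGroup.mk' K)))

end generalLemmas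

variable (N : ℕ)

/-- The parabolic elements of `Additive Γ₀(N)`. -/
def parabolicElements : Set (Additive (Gamma0 N)) :=
  {γ | ((Additive.toMul γ : Gamma0 N) : Matrix (Fin 2) (Fin 2) ℤ).trace ^ 2 = 4}

/-- `Γ₀(N)` abelianized. -/
abbrev AbGroup : Type := Additive (Abelianization (Gamma0 N))

/-- The universal homomorphism to a commutative group. -/
def abHom : Additive (Gamma0 N) →+ AbGroup N :=
  MonoidHom.toAdditive (Abelianization.of : Gamma0 N →* Abelianization (Gamma0 N))

/-- The subgroup generated by parabolic classes. -/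
def parabolicSubgroup : AddSubgroup (AbGroup N) :=
  AddSubgroup.closure (abHom N '' parabolicElements N)

/-- The universal target of parabolic homomorphisms. -/
abbrev ParGroup : Type := AbGroup N ⧸ parabolicSubgroup N

/-- The universal parabolic homomorphism. -/
def parHom : Additive (Gamma0 N) →+ ParGroup N :=
  (QuotientAddGroup.mk' (parabolicSubgroup N)).comp (abHom N)

/-- `parHom` is surjective. -/
lemma parHom_surjective : Function.Surjective (parHom N) :=
  (QuotientAddGroup.mk'_surjective _).comp
    fun a => (QuotientGroup.mk_surjective (Additive.toMul a)).imp fun _ h => h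

/-- `parHom` is parabolic. -/
lemma parHom_isParabolicHom : IsParabolicHom (Gamma0 N) (parHom N) := fun γ hγ =>
  (QuotientAddGroup.eq_zero_iff _).mpr (AddSubgroup.subset_closure ⟨Additive.ofMul γ, hγ, rfl⟩)

variable {N}

/-- A parabolic homomorphism factors through `parHom`. -/
def factor {B : Type*} [AddCommGroup B] (φ : Additive (Gamma0 N) →+ B)
    (hφ : IsParabolicHom (Gamma0 N) φ) : ParGroup N →+ B :=
  QuotientAddGroup.lift (parabolicSubgroup N)
    (MonoidHom.toAdditiveLeft (Abelianization.lift φ.toMultiplicativeRight)) <| by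
    rw [parabolicSubgroup, AddSubgroup.closure_le]
    rintro _ ⟨γ, hγ, rfl⟩
    exact hφ (Additive.toMul γ) hγ

/-- `factor` factors a parabolic homomorphism through `parHom`. -/
lemma factor_comp_parHom {B : Type*} [AddCommGroup B] (φ : Additive (Gamma0 N) →+ B)
    (hφ : IsParabolicHom (Gamma0 N) φ) : (factor φ hφ).comp (parHom N) = φ :=
  AddMonoidHom.ext fun _ => rfl

/-- Periods vanish on parabolic elements. -/
lemma periodMap_isParabolicHom [NeZero N] (f : CuspForm (Gamma0 N) 2) :
    IsParabolicHom (Gamma0 N) (periodMap N f) :=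
  EichlerShimura.periodMap_mem_parabolicHoms N f

/-- A `ℂ`-linear version of the period map. -/
def periodLin (N : ℕ) [NeZero N] : CuspForm (Gamma0 N) 2 →ₗ[ℂ] (Additive (Gamma0 N) →+ ℂ) :=
  (EichlerShimura.existsPeriodMapLinear N).choose

/-- `periodLin` is the period map. -/
lemma periodLin_apply [NeZero N] (f : CuspForm (Gamma0 N) 2) : periodLin N f = periodMap N f :=
  (EichlerShimura.existsPeriodMapLinear N).choose_spec f

instance instFGSL2Z : Group.FG SL(2, ℤ) :=
  Group.fg_iff.mpr ⟨{ModularGroup.S, ModularGroup.T},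
    SpecialLinearGroup.SL2Z_generators, Set.toFinite _⟩

/-- `ParGroup N` is finitely generated. -/
instance instFiniteParGroup [NeZero N] : Module.Finite ℤ (ParGroup N) := by
  rw [Module.Finite.iff_addGroup_fg]
  have : AddGroup.FG (Additive (Gamma0 N)) := inferInstance
  exact AddGroup.fg_of_surjective (parHom_surjective N)

variable [NeZero N] {S : Set ℕ}

/-- Primes outside `S`. -/
abbrev AwayIdx (S : Set ℕ) : Type := {ℓ : Nat.Primes // (ℓ : ℕ) ∉ S}

/-- Noncommutative formal Hecke operators away from `S`. -/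
abbrev FreeHecke (S : Set ℕ) : Type := FreeAlgebra ℤ (AwayIdx S)

variable (hNS : ∀ q : ℕ, q.Prime → q ∣ N → q ∈ S)

/-- Evaluation in the Hecke algebra of cusp forms. -/
def evalFree : FreeHecke S →ₐ[ℤ] CuspForm.heckeAlgebra N 2 S :=
  FreeAlgebra.lift ℤ fun ℓ =>
    CuspForm.heckeAlgebra.T ℓ.1.2 (fun h => ℓ.2 (hNS _ ℓ.1.2 h)) ℓ.2

/-- The action on homomorphisms by transfers. -/
def transferAct (B : Type*) [AddCommGroup B] :
    FreeHecke S →ₐ[ℤ] Module.End ℤ (Additive (Gamma0 N) →+ B) :=
  FreeAlgebra.lift ℤ fun ℓ =>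
    haveI := Fact.mk ℓ.1.2
    (transfer (fun h => ℓ.2 (hNS _ ℓ.1.2 h)) (B := B)).toIntLinearMap

/-- Formal operators surject onto the Hecke algebra. -/
lemma evalFree_surjective : Function.Surjective (evalFree hNS) := by
  rintro ⟨t, ht⟩
  induction ht using Algebra.adjoin_induction with
  | mem x hx =>
    rcases hx with ⟨ℓ, hℓ, hℓN, hℓS, rfl⟩ | ⟨q, hqN, hq, hqS, rfl⟩
    · exact ⟨FreeAlgebra.ι ℤ ⟨⟨ℓ, hℓ⟩, hℓS⟩, Subtype.ext (by simp [evalFree])⟩
    · exact absurd (hNS q hq hqN) hqS
  | algebraMap r => exact ⟨algebraMap ℤ _ r, Subtype.ext (by simp)⟩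
  | add x y _ _ hx hy =>
    obtain ⟨a, ha⟩ := hx
    obtain ⟨b, hb⟩ := hy
    exact ⟨a + b, by rw [map_add, ha, hb]; rfl⟩
  | mul x y _ _ hx hy =>
    obtain ⟨a, ha⟩ := hx
    obtain ⟨b, hb⟩ := hy
    exact ⟨a * b, by rw [map_mul, ha, hb]; rfl⟩

omit [NeZero N] in
/-- The transfer action is natural in the coefficients. -/
lemma comp_transferAct {B C : Type*} [AddCommGroup B] [AddCommGroup C] (g : B →+ C)
    (P : FreeHecke S) : ∀ χ : Additive (Gamma0 N) →+ B,
      g.comp (transferAct hNS B P χ) = transferAct hNS C P (g.comp χ) := by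
  induction P using FreeAlgebra.induction with
  | grade0 r =>
    intro χ
    ext γ
    simp [transferAct]
  | grade1 ℓ =>
    intro χ
    have := Fact.mk ℓ.1.2
    simpa [transferAct] using
      (gamma0System N ℓ.1 (fun h => ℓ.2 (hNS _ ℓ.1.2 h))).comp_transfer g χ
  | add a b ha hb =>
    intro χ
    simp only [map_add, LinearMap.add_apply]
    rw [← ha, ← hb, AddMonoidHom.comp_add]
  | mul a b ha hb =>
    intro χ
    simp only [map_mul, Module.End.mul_apply]
    rw [ha, hb]

/-- The period map intertwines formal operators with their transfer action. -/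
lemma transferAct_periodMap (P : FreeHecke S) : ∀ f : CuspForm (Gamma0 N) 2,
    transferAct hNS ℂ P (periodMap N f)
      = periodMap N ((evalFree hNS P : Module.End ℂ (CuspForm (Gamma0 N) 2)) f) := by
  induction P using FreeAlgebra.induction with
  | grade0 r =>
    intro f
    simp only [AlgHom.commutes, Module.algebraMap_end_apply, Subalgebra.coe_algebraMap,
      ← periodLin_apply]
    exact (map_zsmul (periodLin N) r f).symm
  | grade1 ℓ =>
    intro f
    have := Fact.mk ℓ.1.2
    simpa [transferAct, evalFree] using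
      (periodMap_heckeTLin ℓ.1.2 (fun h => ℓ.2 (hNS _ ℓ.1.2 h)) f).symm
  | add a b ha hb =>
    intro f
    simp only [map_add, LinearMap.add_apply, ha, hb]
    simp only [← periodLin_apply, ← LinearMap.map_add]
    rfl
  | mul a b ha hb =>
    intro f
    simp only [map_mul, Module.End.mul_apply, ha, hb]
    rfl

/-- The period functional of an element of `ParGroup N`. -/
def periodDual (N : ℕ) [NeZero N] : ParGroup N →+ Module.Dual ℂ (CuspForm (Gamma0 N) 2) where
  toFun a :=
    { toFun := fun f => factor (periodMap N f) (periodMap_isParabolicHom f) a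
      map_add' := fun f g => by
        obtain ⟨γ, rfl⟩ := parHom_surjective N a
        show periodMap N (f + g) γ = periodMap N f γ + periodMap N g γ
        rw [← periodLin_apply, map_add, periodLin_apply, periodLin_apply]
        rfl
      map_smul' := fun r f => by
        obtain ⟨γ, rfl⟩ := parHom_surjective N a
        show periodMap N (r • f) γ = r • periodMap N f γ
        rw [← periodLin_apply, map_smul, periodLin_apply]
        rfl }
  map_zero' := LinearMap.ext fun f => map_zero (factor _ (periodMap_isParabolicHom f))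
  map_add' a b := LinearMap.ext fun f => map_add (factor _ (periodMap_isParabolicHom f)) a b

/-- The period functional of a class evaluates periods. -/
@[simp] lemma periodDual_parHom (γ : Additive (Gamma0 N)) (f : CuspForm (Gamma0 N) 2) :
    periodDual N (parHom N γ) f = periodMap N f γ := rfl

/-- The period lattice. -/
def periodLattice (N : ℕ) [NeZero N] : Submodule ℤ (Module.Dual ℂ (CuspForm (Gamma0 N) 2)) :=
  LinearMap.range (periodDual N).toIntLinearMap

instance : Module.Finite ℤ (periodLattice N) := Module.Finite.range _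

/-- The transpose of `evalFree P` applied to a period is a period. -/
lemma dualMap_periodDual (P : FreeHecke S) (γ : Additive (Gamma0 N)) :
    LinearMap.dualMap (evalFree hNS P : Module.End ℂ (CuspForm (Gamma0 N) 2))
        (periodDual N (parHom N γ))
      = periodDual N (transferAct hNS (ParGroup N) P (parHom N) γ) := by
  refine LinearMap.ext fun f => ?_
  rw [LinearMap.dualMap_apply, periodDual_parHom, ← transferAct_periodMap]
  show _ = ((factor (periodMap N f) (periodMap_isParabolicHom f)).comp
    (transferAct hNS (ParGroup N) P (parHom N))) γ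
  rw [comp_transferAct, factor_comp_parHom]

include hNS in
lemma dualMap_mem_periodLattice (t : CuspForm.heckeAlgebra N 2 S) :
    ∀ v ∈ periodLattice N, LinearMap.dualMap (t : Module.End ℂ (CuspForm (Gamma0 N) 2)) v
      ∈ periodLattice N := by
  obtain ⟨P, rfl⟩ := evalFree_surjective hNS t
  rintro _ ⟨a, rfl⟩
  obtain ⟨γ, rfl⟩ := parHom_surjective N a
  exact ⟨_, (dualMap_periodDual hNS P γ).symm⟩

/-- The (transpose) action of the Hecke algebra on the period lattice. -/
def latticeAct : CuspForm.heckeAlgebra N 2 S →ₗ[ℤ] Module.End ℤ (periodLattice N) where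
  toFun t := ((LinearMap.dualMap (t : Module.End ℂ (CuspForm (Gamma0 N) 2))).restrictScalars ℤ
    |>.restrict (dualMap_mem_periodLattice hNS t))
  map_add' t u := LinearMap.ext fun v => Subtype.ext (LinearMap.ext fun f => by
    simp [LinearMap.restrict_apply, map_add])
  map_smul' r t := LinearMap.ext fun v => Subtype.ext (LinearMap.ext fun f => by
    simp [LinearMap.restrict_apply])

/-- The action on the lattice is the transpose. -/
@[simp] lemma latticeAct_apply (t : CuspForm.heckeAlgebra N 2 S) (v : periodLattice N) :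
    ((latticeAct hNS t v : periodLattice N) : Module.Dual ℂ (CuspForm (Gamma0 N) 2))
      = LinearMap.dualMap (t : Module.End ℂ (CuspForm (Gamma0 N) 2)) v := rfl

/-- The Hecke algebra acts faithfully on the period lattice. -/
lemma latticeAct_injective : Function.Injective (latticeAct hNS) := by
  rw [injective_iff_map_eq_zero]
  intro t ht
  refine Subtype.ext (LinearMap.ext fun f => ?_)
  refine eq_zero_of_periodMap_eq_zero _ (AddMonoidHom.ext fun γ => ?_)
  have h1 := congrArg Subtype.val (LinearMap.congr_fun ht ⟨_, ⟨parHom N γ, rfl⟩⟩)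
  exact LinearMap.congr_fun h1 f

instance instFreePeriodLattice : Module.Free ℤ (periodLattice N) :=
  Module.free_of_finite_type_torsion_free'

include hNS in
/-- The Hecke algebra away from the primes of `N` is finite over `ℤ`. -/
theorem moduleFinite_heckeAlgebra : Module.Finite ℤ (CuspForm.heckeAlgebra N 2 S) :=
  Module.Finite.of_injective _ (latticeAct_injective hNS)

/-- Faithfulness modulo powers of `p`. -/
theorem exists_forall_dvd_evalFree {p : ℕ} (hp : p ≠ 0) (j : ℕ) :
    ∃ k : ℕ, ∀ P : FreeHecke S,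
      (∀ χ : Additive (Gamma0 N) →+ ZMod (p ^ k), IsParabolicHom (Gamma0 N) χ →
        transferAct hNS (ZMod (p ^ k)) P χ = 0) →
      ∃ u : CuspForm.heckeAlgebra N 2 S,
        evalFree hNS P = (p : CuspForm.heckeAlgebra N 2 S) ^ j * u := by
  obtain ⟨c, hc⟩ := (Ideal.span {(p : ℤ)}).exists_pow_inf_eq_pow_smul
    (LinearMap.range (latticeAct hNS))
  refine ⟨j + c, fun P hP => ?_⟩
  set n : ℕ := p ^ (j + c) with hn
  have : NeZero n := ⟨pow_ne_zero _ hp⟩
  have hdiv : ∀ γ, ∃ b : ParGroup N, n • b = transferAct hNS (ParGroup N) P (parHom N) γ := by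
    intro γ
    refine exists_nsmul_eq_of_forall_zmod_hom fun ψ => ?_
    show (ψ.comp (transferAct hNS (ParGroup N) P (parHom N))) γ = 0
    rw [comp_transferAct, hP _ fun δ hδ => by
      rw [AddMonoidHom.comp_apply, parHom_isParabolicHom N δ hδ, map_zero]]
    rfl
  set t := evalFree hNS P
  have hdivL : ∀ v : periodLattice N, ∃ w : periodLattice N,
      (n : ℤ) • w = latticeAct hNS t v := by
    rintro ⟨_, a, rfl⟩
    obtain ⟨γ, rfl⟩ := parHom_surjective N a
    obtain ⟨b, hb⟩ := hdiv γ
    refine ⟨⟨_, ⟨b, rfl⟩⟩, Subtype.ext ?_⟩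
    rw [latticeAct_apply]
    refine Eq.trans ?_ (dualMap_periodDual hNS P γ).symm
    rw [← hb, map_nsmul, natCast_zsmul]
    rfl
  choose w hw using hdivL
  have hn0 : (n : ℤ) ≠ 0 := by exact_mod_cast NeZero.ne n
  let e : Module.End ℤ (periodLattice N) :=
    { toFun := w
      map_add' := fun a b => smul_right_injective _ hn0 (by simp only [smul_add, hw, map_add])
      map_smul' := fun r a => smul_right_injective _ hn0 (by
        simp only [RingHom.id_apply, hw, map_smul, smul_comm (n : ℤ) r]) }
  have ht : latticeAct hNS t ∈ (Ideal.span {(p : ℤ)}) ^ (j + c) •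
      (⊤ : Submodule ℤ (Module.End ℤ (periodLattice N))) ⊓ LinearMap.range (latticeAct hNS) := by
    refine ⟨?_, ⟨t, rfl⟩⟩
    have : latticeAct hNS t = (n : ℤ) • e := LinearMap.ext fun v => (hw v).symm
    rw [this]
    refine Submodule.smul_mem_smul ?_ Submodule.mem_top
    rw [hn, Nat.cast_pow]
    exact Ideal.pow_mem_pow (Ideal.mem_span_singleton_self _) _
  rw [hc (j + c) (Nat.le_add_left c j), Nat.add_sub_cancel, Ideal.span_singleton_pow,
    Submodule.ideal_span_singleton_smul] at ht
  obtain ⟨y, ⟨-, u, rfl⟩, hy⟩ := ht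
  refine ⟨u, latticeAct_injective hNS ?_⟩
  have hy' : ((p : ℤ) ^ j) • latticeAct hNS u = latticeAct hNS t := hy
  rw [← hy', ← map_zsmul, zsmul_eq_mul]
  push_cast
  rfl

end Fermat.Agent.HeckeLattice
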