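import Fermat.Prelude.Sol.S_ModularForm_heckeT_slash_eq_self_of_mem_Gamma0
import Mathlib.NumberTheory.ModularForms.CongruenceSubgroups
import Mathlib.Algebra.Group.TypeTags.Hom

/-!
# The transfer form of the Hecke operator `T_ℓ` on homomorphisms of `Γ₀(N)`

For a prime `ℓ ∤ N` the cosets of the double coset of `diag(1, ℓ)` are represented by
`rep ℓ x`, `x ∈ ℙ¹(𝔽_ℓ)`; for `γ ∈ Γ₀(N)` we write `rep ℓ x * γ = cocycle γ x * rep ℓ (next γ x)`,
and `transfer χ γ = ∑ x, χ (cocycle γ x)`.
-/

set_option autoImplicit false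

noncomputable section

namespace Fermat.Agent.HeckeLattice

open Matrix.SpecialLinearGroup CongruenceSubgroup ModularForm
open scoped MatrixGroups OnePoint

/-- The index set of the coset representatives of `T_ℓ`: the projective line over `𝔽_ℓ`. -/
abbrev Idx (ℓ : ℕ) : Type := OnePoint (ZMod ℓ)

/-- The coset representatives of `T_ℓ`. -/
def rep (ℓ : ℕ) (x : Idx ℓ) : GL (Fin 2) ℝ :=
  x.elim (heckeDiagMatrix ℓ) (fun j => heckeMatrix ℓ j.val)

/-- The image of an element of a subgroup of `SL₂(ℤ)` in `GL₂(ℝ)`. -/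
def toGL {Γ : Subgroup SL(2, ℤ)} (γ : Γ) : GL (Fin 2) ℝ := mapGL ℝ (γ : SL(2, ℤ))

/-- `toGL` is injective. -/
lemma toGL_injective {Γ : Subgroup SL(2, ℤ)} : Function.Injective (toGL (Γ := Γ)) :=
  fun _ _ h => Subtype.ext (mapGL_injective h)

/-- `toGL` is multiplicative. -/
@[simp] lemma toGL_mul {Γ : Subgroup SL(2, ℤ)} (γ δ : Γ) : toGL (γ * δ) = toGL γ * toGL δ := by
  simp [toGL, map_mul]

/-- `toGL` sends one to one. -/
@[simp] lemma toGL_one {Γ : Subgroup SL(2, ℤ)} : toGL (1 : Γ) = 1 := by simp [toGL]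

/-- A system of representatives `β x` of the left `Γ`-cosets in a double coset: right
multiplication by `Γ` permutes them up to left multiplication by `Γ`, and they are pairwise
inequivalent under `SL(2, ℤ)`. -/
structure CosetSystem (Γ : Subgroup SL(2, ℤ)) (ι : Type*) where
  /-- The representatives. -/
  β : ι → GL (Fin 2) ℝ
  exists_mul : ∀ (γ : Γ) (x : ι), ∃ q : ι × Γ, β x * toGL γ = toGL q.2 * β q.1
  inj : ∀ (u : SL(2, ℤ)) (x y : ι), mapGL ℝ u * β x = β y → x = y

variable {N ℓ : ℕ}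

/-- Right multiplication by `Γ₀(N)` permutes the cosets. -/
theorem exists_rep_mul [hℓ : Fact ℓ.Prime] (hℓN : ¬ ℓ ∣ N) (γ : Gamma0 N) (x : Idx ℓ) :
    ∃ q : Idx ℓ × Gamma0 N, rep ℓ x * toGL γ = toGL q.2 * rep ℓ q.1 := by
  obtain ⟨g', hg', hmul⟩ :=
    P2MW.S_ModularForm_heckeT_slash_eq_self_of_mem_Gamma0.ModularForm.HeckeSlashInvariance.heckeRep_mul
      (p := ℓ) hℓN (γ : SL(2, ℤ))
      ((ZMod.intCast_zmod_eq_zero_iff_dvd _ _).mp (Gamma0_mem.mp γ.2)) x
  exact ⟨(_, ⟨g', Gamma0_mem.mpr ((ZMod.intCast_zmod_eq_zero_iff_dvd _ _).mpr hg')⟩), hmul⟩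

/-- The coset representatives are pairwise inequivalent under `SL(2, ℤ)`. -/
theorem eq_of_mapGL_mul_rep [hℓ : Fact ℓ.Prime] (u : SL(2, ℤ)) {x y : Idx ℓ}
    (h : mapGL ℝ u * rep ℓ x = rep ℓ y) : x = y := by
  have hp : ℓ ≠ 0 := hℓ.out.ne_zero
  have h2 : (2 : ℝ) ≤ ℓ := by exact_mod_cast hℓ.out.two_le
  have hm : ∀ i j : Fin 2, ((mapGL ℝ u * rep ℓ x : GL (Fin 2) ℝ) : Matrix (Fin 2) (Fin 2) ℝ) i j
      = ((rep ℓ y : GL (Fin 2) ℝ) : Matrix (Fin 2) (Fin 2) ℝ) i j := fun i j => by rw [h]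
  have h00 := hm 0 0
  have h01 := hm 0 1
  have h10 := hm 1 0
  have h11 := hm 1 1
  cases x using OnePoint.rec with
  | infty =>
    cases y using OnePoint.rec with
    | infty => rfl
    | coe j =>
      exfalso
      simp [rep, hp, Matrix.mul_apply, Fin.sum_univ_two] at h00 h01 h10 h11
      have h00' : (u 0 0) * (ℓ : ℤ) = 1 := by exact_mod_cast h00
      have := Int.eq_one_of_mul_eq_one_left (by positivity) h00'
      exact hℓ.out.one_lt.ne' (by exact_mod_cast this)
  | coe i =>
    cases y using OnePoint.rec with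
    | infty =>
      exfalso
      simp [rep, hp, Matrix.mul_apply, Fin.sum_univ_two] at h00 h01 h10 h11
      rw [h10, Int.cast_zero, zero_mul, zero_add] at h11
      have h11' : (u 1 1) * (ℓ : ℤ) = 1 := by exact_mod_cast h11
      have := Int.eq_one_of_mul_eq_one_left (by positivity) h11'
      exact hℓ.out.one_lt.ne' (by exact_mod_cast this)
    | coe j =>
      simp [rep, hp, Matrix.mul_apply, Fin.sum_univ_two] at h00 h01 h10 h11
      rw [h00, Int.cast_one, one_mul, ← ZMod.natCast_val, ← ZMod.natCast_val] at h01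
      have h01' : (i.val : ℤ) + u 0 1 * ℓ = j.val := by exact_mod_cast h01
      have := congrArg (Int.cast : ℤ → ZMod ℓ) h01'
      push_cast at this
      rw [ZMod.natCast_zmod_val, ZMod.natCast_zmod_val, ZMod.natCast_self, mul_zero,
        add_zero] at this
      rw [this]

/-- The coset system of `T_ℓ` on `Γ₀(N)`, `ℓ ∤ N`. -/
def gamma0System (N ℓ : ℕ) [Fact ℓ.Prime] (hℓN : ¬ ℓ ∣ N) : CosetSystem (Gamma0 N) (Idx ℓ) where
  β := rep ℓ
  exists_mul := exists_rep_mul hℓN
  inj u _ _ := eq_of_mapGL_mul_rep u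

namespace CosetSystem

variable {Γ : Subgroup SL(2, ℤ)} {ι : Type*} (D : CosetSystem Γ ι)

/-- The permutation of the representatives induced by `γ`. -/
def next (γ : Γ) (x : ι) : ι := (D.exists_mul γ x).choose.1

/-- The element of `Γ` moved to the left by `γ`. -/
def cocycle (γ : Γ) (x : ι) : Γ := (D.exists_mul γ x).choose.2

/-- The defining property of `next` and `cocycle`. -/
lemma rep_mul (γ : Γ) (x : ι) :
    D.β x * toGL γ = toGL (D.cocycle γ x) * D.β (D.next γ x) :=
  (D.exists_mul γ x).choose_spec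

/-- `next` and `cocycle` are determined by their defining property. -/
lemma eq_of_rep_mul {γ g : Γ} {x y : ι} (h : D.β x * toGL γ = toGL g * D.β y) :
    D.next γ x = y ∧ D.cocycle γ x = g := by
  rw [D.rep_mul γ x] at h
  have hy : D.next γ x = y := by
    refine D.inj ((g : SL(2, ℤ))⁻¹ * (D.cocycle γ x : SL(2, ℤ))) _ _ ?_
    rw [map_mul, map_inv, mul_assoc]
    exact inv_mul_eq_of_eq_mul h
  refine ⟨hy, toGL_injective ?_⟩
  rw [hy] at h
  exact mul_right_cancel h

/-- The defining property for a product. -/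
lemma rep_mul_mul (γ δ : Γ) (x : ι) :
    D.β x * toGL (γ * δ) = toGL (D.cocycle γ x * D.cocycle δ (D.next γ x))
      * D.β (D.next δ (D.next γ x)) := by
  rw [toGL_mul, ← mul_assoc, D.rep_mul γ x, mul_assoc, D.rep_mul δ (D.next γ x),
    ← mul_assoc, toGL_mul]

/-- `next` is a right action. -/
lemma next_mul (γ δ : Γ) (x : ι) : D.next (γ * δ) x = D.next δ (D.next γ x) :=
  (D.eq_of_rep_mul (D.rep_mul_mul γ δ x)).1

/-- The cocycle relation. -/
lemma cocycle_mul (γ δ : Γ) (x : ι) :
    D.cocycle (γ * δ) x = D.cocycle γ x * D.cocycle δ (D.next γ x) :=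
  (D.eq_of_rep_mul (D.rep_mul_mul γ δ x)).2

/-- One fixes the representatives. -/
lemma next_one (x : ι) : D.next 1 x = x :=
  (D.eq_of_rep_mul (g := 1) (by simp)).1

/-- The cocycle of one is one. -/
lemma cocycle_one (x : ι) : D.cocycle 1 x = 1 :=
  (D.eq_of_rep_mul (g := 1) (y := x) (by simp)).2

/-- `next γ` as a permutation. -/
def nextPerm (γ : Γ) : Equiv.Perm ι where
  toFun := D.next γ
  invFun := D.next γ⁻¹
  left_inv x := by rw [← next_mul, mul_inv_cancel, next_one]
  right_inv x := by rw [← next_mul, inv_mul_cancel, next_one]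

variable [Fintype ι]

/-- The Hecke operator on homomorphisms `Γ → B`. -/
def transfer {B : Type*} [AddCommGroup B] : (Additive Γ →+ B) →+ (Additive Γ →+ B) where
  toFun χ :=
    { toFun := fun γ => ∑ x : ι, χ (Additive.ofMul (D.cocycle (Additive.toMul γ) x))
      map_zero' := Finset.sum_eq_zero fun x _ => by
        rw [toMul_zero, cocycle_one]; exact χ.map_zero
      map_add' := fun γ δ => by
        simp only [toMul_add, cocycle_mul, ofMul_mul, map_add, Finset.sum_add_distrib]
        congr 1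
        exact Equiv.sum_comp (D.nextPerm (Additive.toMul γ))
          (fun y => χ (Additive.ofMul (D.cocycle (Additive.toMul δ) y))) }
  map_zero' := AddMonoidHom.ext fun γ => by simp
  map_add' χ χ' := AddMonoidHom.ext fun γ => by simp [Finset.sum_add_distrib]

/-- The transfer is the sum of the values on the cocycle. -/
@[simp] lemma transfer_apply {B : Type*} [AddCommGroup B] (χ : Additive Γ →+ B) (γ : Γ) :
    D.transfer χ (Additive.ofMul γ) = ∑ x : ι, χ (Additive.ofMul (D.cocycle γ x)) := rfl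

/-- `transfer` is natural in the coefficient group. -/
lemma comp_transfer {B C : Type*} [AddCommGroup B] [AddCommGroup C] (f : B →+ C)
    (χ : Additive Γ →+ B) : f.comp (D.transfer χ) = D.transfer (f.comp χ) :=
  AddMonoidHom.ext fun γ => by
    rw [← ofMul_toMul γ, AddMonoidHom.comp_apply, transfer_apply, transfer_apply, map_sum]
    rfl

end CosetSystem

/-- The Hecke operator `T_ℓ` on homomorphisms `Γ₀(N) → B`. -/
abbrev transfer {N ℓ : ℕ} [Fact ℓ.Prime] (hℓN : ¬ ℓ ∣ N) {B : Type*} [AddCommGroup B] :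
    (Additive (Gamma0 N) →+ B) →+ (Additive (Gamma0 N) →+ B) :=
  (gamma0System N ℓ hℓN).transfer

end Fermat.Agent.HeckeLattice
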