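import Fermat.Agent.HeckeLattice.Transfer
import Fermat.Agent.EichlerShimura.Injective
import Fermat.Prelude.Def_ModularForm_HeckeOperatorForms

/-!
# Periods and the Hecke operator: `periodMap (T_ℓ f) = transfer (periodMap f)`
-/

set_option autoImplicit false

noncomputable section

open UpperHalfPlane hiding I
open Complex Filter Topology CongruenceSubgroup ModularCurve ModularCurve.Period
open scoped MatrixGroups ModularForm OnePoint

namespace Fermat.Agent.HeckeLattice

open EichlerShimura (IsPrim)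

/-- Precomposition of a primitive with an element of `GL₂(ℝ)` of positive determinant. -/
theorem isPrim_comp_gl {g G : ℍ → ℂ} (hG : IsPrim g G) (α : GL (Fin 2) ℝ)
    (hdet : (0 : ℝ) < (α : Matrix (Fin 2) (Fin 2) ℝ).det) :
    IsPrim (g ∣[(2 : ℤ)] α) (fun τ => G (α • τ)) := by
  intro τ
  have h1 := (hasStrictDerivAt_smul (g := α) hdet τ).hasDerivAt
  have h2 : HasDerivAt (G ∘ ofComplex) (g (α • τ)) ((fun z => ↑(α • ofComplex z) : ℂ → ℂ) ↑τ) := by
    simp only [ofComplex_apply]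
    exact hG (α • τ)
  have h3 := h2.comp (↑τ : ℂ) h1
  have h4 : HasDerivAt ((fun σ => G (α • σ)) ∘ ofComplex)
      (g (α • τ) * ((((α : Matrix (Fin 2) (Fin 2) ℝ).det : ℝ) : ℂ) / denom α τ ^ 2)) ↑τ := by
    refine h3.congr_of_eventuallyEq (Eventually.of_forall fun z => ?_)
    simp only [Function.comp_apply, ofComplex_apply]
  convert h4 using 1
  have hσ : UpperHalfPlane.σ α = .refl ℝ ℂ := by
    rw [UpperHalfPlane.σ, if_pos]
    rwa [Matrix.GeneralLinearGroup.val_det_apply]
  rw [ModularForm.slash_apply, hσ]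
  simp [zpow_neg, div_eq_mul_inv, zpow_ofNat, abs_of_pos hdet,
    Matrix.GeneralLinearGroup.val_det_apply, mul_assoc]

/-- Primitives add. -/
theorem isPrim_sum {ι : Type*} (s : Finset ι) {g G : ι → ℍ → ℂ}
    (h : ∀ i, IsPrim (g i) (G i)) : IsPrim (∑ i ∈ s, g i) (∑ i ∈ s, G i) := by
  intro τ
  have := HasDerivAt.fun_sum (u := s) fun i (_ : i ∈ s) => h i τ
  simp only [Finset.sum_apply]
  refine this.congr_of_eventuallyEq (Eventually.of_forall fun z => ?_)
  simp

/-- Any primitive computes the periods. -/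
theorem periodMap_eq_of_isPrim {N : ℕ} [NeZero N] (f : CuspForm (Gamma0 N) 2) {G : ℍ → ℂ}
    (hG : IsPrim (f : ℍ → ℂ) G) (γ : Gamma0 N) (τ : ℍ) :
    periodMap N f (Additive.ofMul γ) = G ((γ : SL(2, ℤ)) • τ) - G τ := by
  obtain ⟨F, hF⟩ := EichlerShimura.exists_primitive N f
  obtain ⟨c, hc⟩ := (show IsPrim (f : ℍ → ℂ) F from hF.1).eq_add_const hG
  rw [EichlerShimura.periodMap_apply N f hF γ τ, hc, hc]
  ring

/-- The coset representatives have positive determinant. -/
lemma det_rep_pos {ℓ : ℕ} (x : Idx ℓ) :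
    (0 : ℝ) < ((rep ℓ x : GL (Fin 2) ℝ) : Matrix (Fin 2) (Fin 2) ℝ).det := by
  rw [← Matrix.GeneralLinearGroup.val_det_apply]
  cases x using OnePoint.rec with
  | infty => exact ModularForm.det_heckeDiagMatrix_pos ℓ
  | coe j => exact ModularForm.det_heckeMatrix_pos ℓ j.val

/-- `T_ℓ` is the sum of the slash actions of the coset representatives. -/
theorem heckeT_eq_sum_rep {ℓ : ℕ} [hℓ : Fact ℓ.Prime] (k : ℤ) (f : ℍ → ℂ) :
    ModularForm.heckeT k ℓ f = ∑ x : Idx ℓ, f ∣[k] rep ℓ x :=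
  P2MW.S_ModularForm_heckeT_slash_eq_self_of_mem_Gamma0.ModularForm.HeckeSlashInvariance.heckeT_eq_sum_onePoint
    k f

variable {N : ℕ} [NeZero N] {ℓ : ℕ}

/-- The periods of `T_ℓ f` are the transfer of the periods of `f`. -/
theorem periodMap_heckeTLin (hℓ : ℓ.Prime) (hℓN : ¬ ℓ ∣ N) (f : CuspForm (Gamma0 N) 2) :
    periodMap N (CuspForm.heckeTLin 2 hℓ hℓN f)
      = haveI := Fact.mk hℓ; transfer hℓN (periodMap N f) := by
  have := Fact.mk hℓ
  obtain ⟨F, hF⟩ := EichlerShimura.exists_primitive N f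
  have hG : IsPrim (CuspForm.heckeTLin 2 hℓ hℓN f : ℍ → ℂ)
      (∑ x : Idx ℓ, fun τ => F (rep ℓ x • τ)) := by
    rw [CuspForm.coe_heckeTLin_apply, heckeT_eq_sum_rep]
    exact isPrim_sum _ fun x => isPrim_comp_gl hF.1 (rep ℓ x) (det_rep_pos x)
  refine AddMonoidHom.ext fun γ => ?_
  rw [← ofMul_toMul γ, periodMap_eq_of_isPrim _ hG (Additive.toMul γ) UpperHalfPlane.I,
    CosetSystem.transfer_apply, Finset.sum_apply, Finset.sum_apply]
  set γ' := Additive.toMul γ
  have hstep : ∀ x : Idx ℓ, F (rep ℓ x • ((γ' : SL(2, ℤ)) • UpperHalfPlane.I))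
      = periodMap N f (Additive.ofMul ((gamma0System N ℓ hℓN).cocycle γ' x))
        + F (rep ℓ ((gamma0System N ℓ hℓN).next γ' x) • UpperHalfPlane.I) := by
    intro x
    rw [EichlerShimura.periodMap_apply N f hF _ (rep ℓ ((gamma0System N ℓ hℓN).next γ' x) • UpperHalfPlane.I),
      sub_add_cancel]
    change F (rep ℓ x • (toGL γ' • UpperHalfPlane.I))
      = F (toGL ((gamma0System N ℓ hℓN).cocycle γ' x) •
          (rep ℓ ((gamma0System N ℓ hℓN).next γ' x) • UpperHalfPlane.I))
    rw [← mul_smul, ← mul_smul]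
    exact congrArg (fun A => F (A • UpperHalfPlane.I)) ((gamma0System N ℓ hℓN).rep_mul γ' x)
  rw [Finset.sum_congr rfl fun x _ => hstep x, Finset.sum_add_distrib]
  rw [show (∑ x : Idx ℓ, F (rep ℓ ((gamma0System N ℓ hℓN).next γ' x) • UpperHalfPlane.I))
      = ∑ x : Idx ℓ, F (rep ℓ x • UpperHalfPlane.I) from
    Equiv.sum_comp ((gamma0System N ℓ hℓN).nextPerm γ') (fun y => F (rep ℓ y • UpperHalfPlane.I))]
  ring

/-- A cusp form of weight two with vanishing periods is zero. -/
theorem eq_zero_of_periodMap_eq_zero (f : CuspForm (Gamma0 N) 2) (h : periodMap N f = 0) :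
    f = 0 := by
  have h0 : periodHomPair N (f, 0) = 0 := by
    obtain ⟨pml, hpml, e⟩ := periodHomPair_def N (EichlerShimura.existsPeriodMapLinear N)
    have hz : periodMap N 0 = 0 := by rw [← hpml 0, map_zero]
    simp [e, hpml, h, hz]
  have := EichlerShimura.periodHomPair_injective N (h0.trans (map_zero (periodHomPair N)).symm)
  exact congrArg Prod.fst this

end Fermat.Agent.HeckeLattice
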